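/-
S33 / Depth.  TASK DEPTH-11: the abstract data `Cech.Data` (with degenerate charts `B_i = A`) for the
Gauss valuation of a field `F ⊆ K((q))` of quotients of integral series.
-/
import Fermat.Agent.S33.Depth.Series
import Fermat.Agent.S33.Cech.Defs
import Fermat.Agent.S18.Vert.GaussRes

set_option autoImplicit false

namespace Fermat.Agent.S33.Depth

open ModularCurve Fermat.Agent.S18.Vert

variable {K : Type*} [Field K]

/-- `A` has residue characteristic `p`, `p = η π ^ e`, perfect residue field. -/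
structure IsP (p : ℕ) (A : ValuationSubring K) (π η : A) (e : ℕ) : Prop where
  irr : Irreducible π
  unit : IsUnit η
  e_pos : 0 < e
  p_eq : (p : A) = η * π ^ e
  perfect : ∀ c : A, ∃ d : A, π ∣ d ^ p - c

variable {A : ValuationSubring K} [IsDiscreteValuationRing A]
  {F : IntermediateField K (LaurentSeries K)}

variable (A F) in
/-- The constants of `A`, in `F`. -/
noncomputable def constA : Subring F := A.toSubring.map (algebraMap K F)

theorem mem_constA {x : F} : x ∈ constA A F ↔ ∃ a : A, algebraMap K F (a : K) = x := by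
  unfold constA
  rw [Subring.mem_map]
  constructor
  · rintro ⟨a, ha, rfl⟩
    exact ⟨⟨a, ha⟩, rfl⟩
  · rintro ⟨a, rfl⟩
    exact ⟨a, a.2, rfl⟩

variable (hq : IsQuot A F)

/-- constants of `A` are in the Gauss ring (`gaussC`, `coe_gaussC'`) -/
theorem constA_le : constA A F ≤ (gaussVal A F hq).toSubring := by
  intro x hx
  obtain ⟨a, rfl⟩ := mem_constA.1 hx
  rw [← coe_gaussC' hq a]
  exact (gaussC hq a).2

/-- a constant of `K` which is in the Gauss ring is in `A`
(if `c ∉ A` then `c⁻¹` is in the maximal ideal of `A`, so `gaussRes (gaussC c⁻¹) = 0`, but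
`c * c⁻¹ = 1`). -/
theorem mem_of_algebraMap_mem {c : K} (h : algebraMap K F c ∈ gaussVal A F hq) : c ∈ A := by
  by_contra hc
  have hc0 : c ≠ 0 := by
    rintro rfl
    exact hc A.zero_mem
  have hinv : c⁻¹ ∈ A := (A.mem_or_inv_mem c).resolve_left hc
  have hnu : ¬ IsUnit (⟨c⁻¹, hinv⟩ : A) := by
    rintro ⟨u, hu⟩
    apply hc
    have h1 : ((u⁻¹ : Aˣ) : A) * (⟨c⁻¹, hinv⟩ : A) = 1 := by rw [← hu]; exact u.inv_mul
    have h2 : (((u⁻¹ : Aˣ) : A) : K) * c⁻¹ = 1 := congrArg Subtype.val h1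
    have h3 : (((u⁻¹ : Aˣ) : A) : K) = c := by
      field_simp at h2
      exact h2
    rw [← h3]
    exact ((u⁻¹ : Aˣ) : A).2
  have hres : IsLocalRing.residue A (⟨c⁻¹, hinv⟩ : A) = 0 := by
    rw [IsLocalRing.residue_eq_zero_iff, IsLocalRing.mem_maximalIdeal, mem_nonunits_iff]
    exact hnu
  have h1 : (⟨algebraMap K F c, h⟩ : gaussVal A F hq) * gaussC hq ⟨c⁻¹, hinv⟩ = 1 := by
    apply Subtype.ext
    show algebraMap K F c * (gaussC hq ⟨c⁻¹, hinv⟩ : F) = 1
    rw [coe_gaussC', ← map_mul]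
    show algebraMap K F (c * c⁻¹) = 1
    rw [mul_inv_cancel₀ hc0, map_one]
  have h2 := congrArg (gaussRes hq) h1
  rw [map_mul, gaussRes_gaussC, hres, map_zero, mul_zero, map_one] at h2
  exact zero_ne_one h2

/-- divisibility by `π` in the Gauss ring and the residue map (`gaussRes_eq_zero_iff`) -/
theorem gaussRes_eq_zero_iff' {π : A} (hπ : Irreducible π) (z : gaussVal A F hq) :
    gaussRes hq z = 0 ↔ ∃ t ∈ gaussVal A F hq, (z : F) = algebraMap K F (π : K) * t := by
  rw [gaussRes_eq_zero_iff hq hπ]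
  constructor
  · rintro ⟨g, rfl⟩
    exact ⟨g, g.2, by push_cast; rw [coe_gaussC']⟩
  · rintro ⟨t, ht, h⟩
    refine ⟨⟨t, ht⟩, Subtype.ext ?_⟩
    push_cast
    rw [coe_gaussC', h]

/-- a power series over a field of characteristic zero whose `p`-th power is constant is
constant -/
theorem data_powerSeries_const [CharZero K] {p : ℕ} (hp : 0 < p) {φ : PowerSeries K} {c : K}
    (h : φ ^ p = PowerSeries.C c) : φ = PowerSeries.C (PowerSeries.constantCoeff φ) := by
  set a := PowerSeries.constantCoeff φ with ha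
  have hac : a ^ p = c := by
    have := congrArg PowerSeries.constantCoeff h
    rwa [map_pow, PowerSeries.constantCoeff_C] at this
  rcases eq_or_ne a 0 with ha0 | ha0
  · have hc : c = 0 := by rw [← hac, ha0, zero_pow hp.ne']
    rw [hc, map_zero] at h
    rw [ha0, map_zero]
    exact pow_eq_zero_iff hp.ne' |>.1 h
  · have h1 := geom_sum₂_mul φ (PowerSeries.C a) p
    rw [h, ← map_pow, hac, sub_self] at h1
    rcases mul_eq_zero.1 h1 with h2 | h2
    · exfalso
      have h3 := congrArg PowerSeries.constantCoeff h2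
      rw [map_sum, map_zero] at h3
      simp only [map_mul, map_pow, PowerSeries.constantCoeff_C, ← ha] at h3
      rw [geom_sum₂_self] at h3
      rcases mul_eq_zero.1 h3 with h4 | h4
      · exact hp.ne' (Nat.cast_eq_zero.1 h4)
      · exact pow_ne_zero _ ha0 h4
    · exact sub_eq_zero.1 h2

/-- an element of `F` whose `p`-th power is a constant is a constant.
(`K((q))` is a field, `z ^ p = C c`; if `z ≠ 0` then `p * order z = 0`; write `z = C a * (1 + w)`,
`order w > 0` or `w = 0`; `(1 + w) ^ p = 1 + p w + …` is a constant, in characteristic zero this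
forces `w = 0`: the coefficient of `q ^ (order w)` in `(1 + w) ^ p` is `p * leading coefficient`.) -/
theorem exists_const_of_pow [CharZero K] {p : ℕ} (hp : 0 < p) {z : F} {c : K}
    (h : z ^ p = algebraMap K F c) : ∃ a : K, z = algebraMap K F a := by
  have h' : (z : LaurentSeries K) ^ p = HahnSeries.C c := by
    have h1 : ((z ^ p : F) : LaurentSeries K) = ((algebraMap K F c : F) : LaurentSeries K) :=
      congrArg (fun x : F => (x : LaurentSeries K)) h
    have h2 : ((algebraMap K F c : F) : LaurentSeries K) = algebraMap K (LaurentSeries K) c := rfl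
    have h3 : ((z ^ p : F) : LaurentSeries K) = (z : LaurentSeries K) ^ p := rfl
    rw [← h3, h1, h2, algebraMap_laurentSeries_eq_single]
    rfl
  have hord : (z : LaurentSeries K).order = 0 := by
    have h1 := congrArg HahnSeries.order h'
    rw [HahnSeries.order_pow, HahnSeries.order_C] at h1
    have hp0 : (p : ℤ) ≠ 0 := by exact_mod_cast hp.ne'
    rcases mul_eq_zero.mp (by simpa using h1 : (p : ℤ) * (z : LaurentSeries K).order = 0) with h0 | h0
    · exact absurd h0 hp0
    · exact h0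
  have hz : HahnSeries.ofPowerSeries ℤ K (z : LaurentSeries K).powerSeriesPart =
      (z : LaurentSeries K) := by
    rw [LaurentSeries.ofPowerSeries_powerSeriesPart, hord, neg_zero]
    exact one_mul _
  have h3 : (z : LaurentSeries K).powerSeriesPart ^ p = PowerSeries.C c := by
    apply HahnSeries.ofPowerSeries_injective (Γ := ℤ)
    rw [map_pow, hz, h', HahnSeries.ofPowerSeries_C]
  have h4 := data_powerSeries_const hp h3
  refine ⟨PowerSeries.constantCoeff (z : LaurentSeries K).powerSeriesPart, Subtype.ext ?_⟩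
  have h5 : ∀ a : K, ((algebraMap K F a : F) : LaurentSeries K) = HahnSeries.C a := by
    intro a
    have h2 : ((algebraMap K F a : F) : LaurentSeries K) = algebraMap K (LaurentSeries K) a := rfl
    rw [h2, algebraMap_laurentSeries_eq_single]
    rfl
  rw [h5]
  calc (z : LaurentSeries K) = HahnSeries.ofPowerSeries ℤ K (z : LaurentSeries K).powerSeriesPart :=
        hz.symm
    _ = HahnSeries.ofPowerSeries ℤ K
          (PowerSeries.C (PowerSeries.constantCoeff (z : LaurentSeries K).powerSeriesPart)) :=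
        congrArg _ h4
    _ = _ := HahnSeries.ofPowerSeries_C _

/-! ### The fields of `gData` -/

/-- a valuation ring is closed under roots -/
theorem data_mem_of_pow_mem {L : Type*} [Field L] (V : ValuationSubring L) {n : ℕ} (hn : 0 < n)
    {z : L} (h : z ^ n ∈ V) : z ∈ V := by
  rcases V.mem_or_inv_mem z with hz | hz
  · exact hz
  · rcases eq_or_ne z 0 with rfl | h0
    · exact V.zero_mem
    · obtain ⟨m, rfl⟩ := Nat.exists_eq_succ_of_ne_zero hn.ne'
      have h1 : z = z ^ (m + 1) * (z⁻¹) ^ m := by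
        rw [pow_succ, inv_pow]
        field_simp
      rw [h1]
      exact V.mul_mem _ _ h (pow_mem hz _)

theorem data_coe_ne_zero {π : A} (hπ : Irreducible π) : (π : K) ≠ 0 :=
  fun h0 => hπ.ne_zero (Subtype.ext h0)

theorem data_π_ne {π : A} (hπ : Irreducible π) : algebraMap K F (π : K) ≠ 0 := by
  rw [Ne, map_eq_zero]
  exact data_coe_ne_zero hπ

theorem data_π_inv {π : A} (hπ : Irreducible π) :
    (algebraMap K F (π : K))⁻¹ ∉ (gaussVal A F hq).toSubring := by
  intro h
  rw [← map_inv₀] at h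
  have h1 : (π : K)⁻¹ ∈ A := mem_of_algebraMap_mem hq h
  apply hπ.not_isUnit
  refine IsUnit.of_mul_eq_one ⟨(π : K)⁻¹, h1⟩ (Subtype.ext ?_)
  show (π : K) * (π : K)⁻¹ = 1
  exact mul_inv_cancel₀ (data_coe_ne_zero hπ)

theorem data_η_ne {η : A} (hη : IsUnit η) : algebraMap K F (η : K) ≠ 0 := by
  rw [Ne, map_eq_zero]
  intro h0
  exact hη.ne_zero (Subtype.ext h0)

theorem data_η_inv {η : A} (hη : IsUnit η) : (algebraMap K F (η : K))⁻¹ ∈ constA A F := by
  obtain ⟨u, rfl⟩ := hη
  refine mem_constA.2 ⟨((u⁻¹ : Aˣ) : A), ?_⟩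
  apply eq_inv_of_mul_eq_one_left
  rw [← map_mul]
  have h1 : (((u⁻¹ : Aˣ) : A) : K) * ((u : A) : K) = 1 := congrArg Subtype.val u.inv_mul
  rw [h1, map_one]

theorem data_p_eq {p : ℕ} {π η : A} {e : ℕ} (h : (p : A) = η * π ^ e) :
    (p : F) = algebraMap K F (η : K) * algebraMap K F (π : K) ^ e := by
  have h1 : ((p : A) : K) = (η : K) * (π : K) ^ e := by
    rw [h]
    rfl
  rw [← map_pow, ← map_mul, ← h1]
  simp

theorem data_one_add {π : A} (hπ : Irreducible π) : ∀ z ∈ (gaussVal A F hq).toSubring,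
    (1 + algebraMap K F (π : K) * z)⁻¹ ∈ (gaussVal A F hq).toSubring := by
  intro z hz
  have hu : IsUnit (1 + gaussC hq π * (⟨z, hz⟩ : gaussVal A F hq)) := by
    rw [isUnit_iff_gaussRes_ne_zero, map_add, map_mul, map_one,
      gaussRes_gaussC_irreducible hq hπ, zero_mul, add_zero]
    exact one_ne_zero
  obtain ⟨u, hu⟩ := hu
  have h2 : ((u : gaussVal A F hq) : F) = 1 + algebraMap K F (π : K) * z := by
    rw [hu]
    push_cast
    rw [coe_gaussC']
  have h1 : (((u⁻¹ : (gaussVal A F hq)ˣ) : gaussVal A F hq) : F) =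
      (1 + algebraMap K F (π : K) * z)⁻¹ := by
    rw [← h2]
    apply eq_inv_of_mul_eq_one_left
    exact congrArg (fun x : gaussVal A F hq => (x : F)) u.inv_mul
  rw [← h1]
  exact (((u⁻¹ : (gaussVal A F hq)ˣ) : gaussVal A F hq)).2

theorem data_frob {p : ℕ} (hp : 0 < p) {π : A} (hπ : Irreducible π) :
    ∀ z ∈ (gaussVal A F hq).toSubring,
      (∃ t ∈ (gaussVal A F hq).toSubring, z ^ p = algebraMap K F (π : K) * t) →
      ∃ t ∈ (gaussVal A F hq).toSubring, z = algebraMap K F (π : K) * t := by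
  rintro z hz ⟨t, ht, h⟩
  have h1 : gaussRes hq ((⟨z, hz⟩ : gaussVal A F hq) ^ p) = 0 :=
    (gaussRes_eq_zero_iff' hq hπ _).2 ⟨t, ht, h⟩
  rw [map_pow] at h1
  exact (gaussRes_eq_zero_iff' hq hπ ⟨z, hz⟩).1 ((pow_eq_zero_iff hp.ne').1 h1)

theorem data_perfect {p : ℕ} {π : A} (h : ∀ c : A, ∃ d : A, π ∣ d ^ p - c) :
    ∀ c ∈ constA A F, ∃ d ∈ constA A F, ∃ t ∈ (gaussVal A F hq).toSubring,
      d ^ p - c = algebraMap K F (π : K) * t := by
  intro c hc
  obtain ⟨c0, rfl⟩ := mem_constA.1 hc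
  obtain ⟨d0, t0, h0⟩ := h c0
  refine ⟨algebraMap K F d0, mem_constA.2 ⟨d0, rfl⟩, algebraMap K F t0,
    constA_le hq (mem_constA.2 ⟨t0, rfl⟩), ?_⟩
  have h1 : (d0 : K) ^ p - (c0 : K) = (π : K) * (t0 : K) := congrArg Subtype.val h0
  rw [← map_pow, ← map_sub, ← map_mul, h1]

theorem data_sat {π : A} (hπ : Irreducible π) : ∀ z ∈ (gaussVal A F hq).toSubring,
    algebraMap K F (π : K) * z ∈ constA A F → z ∈ constA A F := by
  intro z hz h
  obtain ⟨a, ha⟩ := mem_constA.1 h
  have hπ0 := data_π_ne (F := F) hπ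
  have hz' : z = algebraMap K F ((a : K) / π) := by
    rw [map_div₀, ha]
    field_simp
  have h1 : (a : K) / π ∈ A := mem_of_algebraMap_mem hq (hz' ▸ hz)
  exact mem_constA.2 ⟨⟨_, h1⟩, hz'.symm⟩

theorem data_root [CharZero K] {p : ℕ} (hp : 0 < p) :
    ∀ z : F, z ^ p ∈ constA A F → z ∈ constA A F := by
  intro z h
  obtain ⟨a, ha⟩ := mem_constA.1 h
  obtain ⟨b, rfl⟩ := exists_const_of_pow hp ha.symm
  have h1 : b ^ p = a := (algebraMap K F).injective (by rw [map_pow, ha])
  exact mem_constA.2 ⟨⟨b, data_mem_of_pow_mem A hp (h1 ▸ a.2)⟩, rfl⟩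

theorem data_charP {p : ℕ} (hp : p.Prime) {π η : A} {e : ℕ} (h : IsP p A π η e) :
    CharP (IsLocalRing.ResidueField A) p := by
  apply (CharP.charP_iff_prime_eq_zero hp).2
  have h1 : IsLocalRing.residue A (p : A) = 0 := by
    rw [h.p_eq, residue_eq_zero_iff_dvd h.irr]
    exact Dvd.dvd.mul_left (dvd_pow_self _ h.e_pos.ne') _
  simpa using h1

theorem data_pr {p : ℕ} (hp : p.Prime) {π η : A} {e : ℕ} (h : IsP p A π η e) :
    ∀ c ∈ (gaussVal A F hq).toSubring, ∀ b ∈ constA A F,
      (∃ t ∈ (gaussVal A F hq).toSubring, c ^ p - b = algebraMap K F (π : K) * t) →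
      ∃ b' ∈ constA A F, ∃ t ∈ (gaussVal A F hq).toSubring,
        c - b' = algebraMap K F (π : K) * t := by
  rintro c hc b hb ⟨t, ht, hct⟩
  obtain ⟨b0, rfl⟩ := mem_constA.1 hb
  haveI := Fact.mk hp
  haveI := data_charP hp h
  have h1 : gaussRes hq ((⟨c, hc⟩ : gaussVal A F hq) ^ p - gaussC hq b0) = 0 := by
    rw [gaussRes_eq_zero_iff' hq h.irr]
    refine ⟨t, ht, ?_⟩
    push_cast
    rw [coe_gaussC']
    exact hct
  rw [map_sub, map_pow, gaussRes_gaussC, sub_eq_zero] at h1
  obtain ⟨c', hc'⟩ := eq_C_of_pow_eq_C p h1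
  obtain ⟨b1, rfl⟩ := IsLocalRing.residue_surjective c'
  have h2 : gaussRes hq ((⟨c, hc⟩ : gaussVal A F hq) - gaussC hq b1) = 0 := by
    rw [map_sub, gaussRes_gaussC, hc', sub_self]
  obtain ⟨t', ht', h3⟩ := (gaussRes_eq_zero_iff' hq h.irr _).1 h2
  refine ⟨algebraMap K F b1, mem_constA.2 ⟨b1, rfl⟩, t', ht', ?_⟩
  rw [← h3]
  push_cast
  rw [coe_gaussC']

/-- The data.  All fields about `B1 = B2 = B12 = A` are the corresponding facts for the constants.
* `π_inv`: `gaussRes π = 0`;
* `one_add`: `gaussRes (1 + π z) = 1 ≠ 0`, `isUnit_iff_gaussRes_ne_zero`;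
* `frob`: `gaussRes` takes values in a field, `gaussRes_eq_zero_iff'`;
* `rootO`: a valuation ring is integrally closed (`z ∉ O → z⁻¹ ∈ O`, `z = (z ^ p) (z⁻¹) ^ (p - 1)`);
* `perfect`: `h.perfect`;
* `satA`, `sat1`, …: `z = a / π` is a constant in the Gauss ring, `mem_of_algebraMap_mem`;
* `root1`, …: `exists_const_of_pow`, then `a ^ p ∈ A → a ∈ A`;
* `pr1`, `pr2`: `gaussRes c ^ p` is constant, `eq_C_of_pow_eq_C`, lift the constant to `A`
  (`IsLocalRing.residue_surjective`), `gaussRes_gaussC`, `gaussRes_eq_zero_iff'`;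
* `h0`: take `c = b1`, `t = 0`. -/
noncomputable def gData [CharZero K] {p : ℕ} (hp : p.Prime) {π η : A} {e : ℕ}
    (h : IsP p A π η e) : Cech.Data p F where
  O := (gaussVal A F hq).toSubring
  A := constA A F
  B1 := constA A F
  B2 := constA A F
  B12 := constA A F
  π := algebraMap K F (π : K)
  η := algebraMap K F (η : K)
  e := e
  A_le1 := le_rfl
  A_le2 := le_rfl
  B1_le := le_rfl
  B2_le := le_rfl
  B12_le := constA_le hq
  π_mem := mem_constA.2 ⟨π, rfl⟩
  π_ne := data_π_ne h.irr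
  π_inv := data_π_inv hq h.irr
  η_mem := mem_constA.2 ⟨η, rfl⟩
  η_inv := data_η_inv h.unit
  η_ne := data_η_ne h.unit
  e_pos := h.e_pos
  p_eq := data_p_eq h.p_eq
  one_add := data_one_add hq h.irr
  frob := data_frob hq hp.pos h.irr
  rootO := fun _ hz => data_mem_of_pow_mem (gaussVal A F hq) hp.pos hz
  perfect := data_perfect hq h.perfect
  satA := data_sat hq h.irr
  sat1 := data_sat hq h.irr
  sat2 := data_sat hq h.irr
  sat12 := data_sat hq h.irr
  root1 := data_root hp.pos
  root2 := data_root hp.pos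
  root12 := data_root hp.pos
  pr1 := data_pr hq hp h
  pr2 := data_pr hq hp h
  h0 := fun b1 hb1 _ _ _ => ⟨b1, hb1, 0, Subring.zero_mem _, by rw [sub_self, mul_zero]⟩

end Fermat.Agent.S33.Depth
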