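/-
S33 / Depth.  TASK DEPTH-12: the structure `Gen` for the Gauss valuation, and the operators `T_p`,
`U_p` given by their `q`-expansions.
-/
import Fermat.Agent.S33.Depth.Defs
import Fermat.Agent.S33.Depth.Inst.Data
import Fermat.Agent.S33.Depth.Star.Field

set_option autoImplicit false

namespace Fermat.Agent.S33.Depth

open ModularCurve Fermat.Agent.S18.Vert Fermat.Agent.Lib.MulHecke

variable {K : Type*} [Field K] [CharZero K] {A : ValuationSubring K} [IsDiscreteValuationRing A]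
  {F : IntermediateField K (LaurentSeries K)} (hq : IsQuot A F)
  {p : ℕ} (hp : p.Prime) {π η : A} {e : ℕ} (h : IsP p A π η e)

/-- `Dvd` for `gData`. -/
theorem gData_dvd_iff (M : ℕ) (x : F) :
    (gData hq hp h).Dvd M x ↔ ∃ z ∈ gaussVal A F hq, x = algebraMap K F (π : K) ^ M * z :=
  Iff.rfl

omit [CharZero K] in
/-- the inverse of a unit of the Gauss ring -/
theorem Gen_unit_inv_mem (u : (gaussVal A F hq)ˣ) :
    (((u : gaussVal A F hq) : F))⁻¹ ∈ gaussVal A F hq := by
  have h1 : (((u : gaussVal A F hq) : F)) * (((u⁻¹ : (gaussVal A F hq)ˣ) : gaussVal A F hq) : F)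
      = 1 := by
    have h2 := congrArg (fun z : gaussVal A F hq => (z : F)) u.mul_inv
    exact h2
  rw [← eq_inv_of_mul_eq_one_right h1]
  exact ((u⁻¹ : (gaussVal A F hq)ˣ) : gaussVal A F hq).2

omit [CharZero K] in
/-- the discrete valuation of the Gauss ring -/
theorem Gen_val {π : A} (hπ : Irreducible π) (x : F) (hx : x ≠ 0) :
    ∃ (n : ℤ) (y : F), y ∈ gaussVal A F hq ∧ y⁻¹ ∈ gaussVal A F hq ∧
      x = algebraMap K F (π : K) ^ n * y := by
  rcases (gaussVal A F hq).mem_or_inv_mem x with hx1 | hx1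
  · obtain ⟨m, u, hu⟩ := exists_unit_mul_pow hq hπ ⟨x, hx1⟩
      (fun h0 => hx (congrArg Subtype.val h0))
    refine ⟨m, ((u : gaussVal A F hq) : F), (u : gaussVal A F hq).2, Gen_unit_inv_mem hq u, ?_⟩
    have := congrArg (fun z : gaussVal A F hq => (z : F)) hu
    simp only at this
    rw [this]
    push_cast
    rw [coe_gaussC', zpow_natCast, mul_comm]
  · obtain ⟨m, u, hu⟩ := exists_unit_mul_pow hq hπ ⟨x⁻¹, hx1⟩
      (fun h0 => inv_ne_zero hx (congrArg Subtype.val h0))
    refine ⟨-m, (((u : gaussVal A F hq) : F))⁻¹, Gen_unit_inv_mem hq u, ?_, ?_⟩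
    · rw [inv_inv]; exact (u : gaussVal A F hq).2
    have := congrArg (fun z : gaussVal A F hq => (z : F)) hu
    simp only at this
    rw [← inv_inv x, this]
    push_cast
    rw [coe_gaussC', zpow_neg, zpow_natCast, mul_inv, mul_comm]

omit [CharZero K] in
/-- an element of the Gauss ring with constant reduction is congruent to a constant -/
theorem Gen_res_const {π : A} (hπ : Irreducible π) (z : gaussVal A F hq)
    (c : IsLocalRing.ResidueField A) (hc : gaussRes hq z = HahnSeries.C c) :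
    ∃ a : A, ∃ t ∈ gaussVal A F hq, (z : F) - algebraMap K F (a : K) =
      algebraMap K F (π : K) * t := by
  obtain ⟨a, rfl⟩ := IsLocalRing.residue_surjective c
  have h1 : gaussRes hq (z - gaussC hq a) = 0 := by
    rw [map_sub, gaussRes_gaussC]
    exact sub_eq_zero.2 hc
  obtain ⟨t, ht, h2⟩ := (gaussRes_eq_zero_iff' hq hπ _).1 h1
  refine ⟨a, t, ht, ?_⟩
  rw [← h2, ← coe_gaussC' hq]
  rfl

/-- The generic data.
* `mem_A`: `mem_constA`, `mem_of_algebraMap_mem`, `constA_le`;
* `val`: `exists_unit_mul_pow` applied to `x` or to `x⁻¹` (`gaussVal` is a valuation subring);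
* `res_eq_zero`: `gaussRes_eq_zero_iff'`;
* `res_A`: `gaussRes_gaussC`;
* `res_const`: lift the constant to `A`, `gaussRes_gaussC`, `gaussRes_eq_zero_iff'`. -/
noncomputable def gGen : Gen (gData hq hp h) (IsLocalRing.ResidueField A) where
  Kc := (algebraMap K F).fieldRange
  mem_A := by
    intro x
    constructor
    · intro hx
      obtain ⟨a, rfl⟩ := mem_constA.1 hx
      exact ⟨⟨(a : K), rfl⟩, constA_le hq hx⟩
    · rintro ⟨⟨c, rfl⟩, hx⟩
      exact mem_constA.2 ⟨⟨c, mem_of_algebraMap_mem hq hx⟩, rfl⟩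
  val := fun x hx => Gen_val hq h.irr x hx
  res := gaussRes hq
  res_eq_zero := by
    intro z
    rw [gData_dvd_iff, pow_one]
    exact gaussRes_eq_zero_iff' hq h.irr z
  res_A := by
    intro z hz
    obtain ⟨a, ha⟩ := mem_constA.1 hz
    refine ⟨IsLocalRing.residue A a, ?_⟩
    have : z = gaussC hq a := Subtype.ext (by rw [coe_gaussC', ha])
    rw [this]
    exact gaussRes_gaussC hq a
  res_const := by
    rintro z ⟨c, hc⟩
    obtain ⟨a, t, ht, h2⟩ := Gen_res_const hq h.irr z c hc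
    exact ⟨algebraMap K F (a : K), mem_constA.2 ⟨a, rfl⟩,
      (gData_dvd_iff hq hp h 1 _).2 ⟨t, ht, by rw [pow_one]; exact h2⟩⟩

theorem gGen_res (z : gaussVal A F hq) : (gGen hq hp h).res z = gaussRes hq z := rfl

omit [CharZero K] [IsDiscreteValuationRing A] in
/-- `π ∣ p` -/
theorem IsP.dvd_p {p : ℕ} {π η : A} {e : ℕ} (h : IsP p A π η e) : π ∣ (p : A) := by
  rw [h.p_eq]
  exact Dvd.dvd.mul_left (dvd_pow_self π h.e_pos.ne') η

omit [CharZero K] in
theorem Gen_algebraMap_eq_C (c : K) :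
    algebraMap K (LaurentSeries K) c = (HahnSeries.C c : LaurentSeries K) := by
  rw [algebraMap_laurentSeries_eq_single]
  rfl

/-- constants: `V c = c ^ ℓ` -/
theorem Gen_V_C {R : Type*} [CommRing R] (ℓ : ℕ) [NeZero ℓ] (ξ : Rˣ) (c : R) :
    V ℓ ξ (HahnSeries.C c : LaurentSeries R) = HahnSeries.C (c ^ ℓ) := by
  have h1 : prodTw ξ ℓ (HahnSeries.C c : LaurentSeries R) = qExpand R ℓ (HahnSeries.C (c ^ ℓ)) := by
    rw [qExpand_C, prodTw]
    have : ∀ b ∈ Finset.range ℓ, tw (ξ ^ b) (HahnSeries.C c : LaurentSeries R) = HahnSeries.C c := by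
      intro b _
      ext n
      rw [tw_coeff, HahnSeries.C_apply, HahnSeries.coeff_single]
      split_ifs with h
      · subst h; simp
      · simp
    rw [Finset.prod_congr rfl this, Finset.prod_const, Finset.card_range, map_pow]
  rw [V, h1, contract_qExpand]

/-- `T_p` (`star_T`; constants: `Tm_C`). -/
theorem op_T [Fact p.Prime] {ξ : Aˣ} (hξ : ξ ^ p = 1) (T : F →* F)
    (hT : ∀ u : F, ((T u : F) : LaurentSeries K) = Tm p (unitK ξ) (u : LaurentSeries K)) :
    (gGen hq hp h).Op T := by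
  have : CharP (IsLocalRing.ResidueField A) p := charP_residueField h.irr h.dvd_p
  refine ⟨?_, ?_⟩
  · rintro _ ⟨c, rfl⟩
    refine ⟨c ^ (p + 1), Subtype.ext ?_⟩
    rw [hT]
    change algebraMap K (LaurentSeries K) (c ^ (p + 1)) =
      Tm p (unitK ξ) (algebraMap K (LaurentSeries K) c)
    rw [Gen_algebraMap_eq_C, Gen_algebraMap_eq_C, Tm_C]
  · intro m hm z
    exact star_T hq h.irr h.dvd_p hξ T hT hm z

/-- `U_p` (`star_U`; constants: `V p ζ (C c) = C (c ^ p)`, from `prodTw`, `Root_tw_C`). -/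
theorem opU_U [Fact p.Prime] {ξ : Aˣ} (hξ : ξ ^ p = 1) (U : F →* F)
    (hU : ∀ u : F, ((U u : F) : LaurentSeries K) = V p (unitK ξ) (u : LaurentSeries K)) :
    (gGen hq hp h).OpU U := by
  have : CharP (IsLocalRing.ResidueField A) p := charP_residueField h.irr h.dvd_p
  refine ⟨?_, ?_⟩
  · rintro _ ⟨c, rfl⟩
    refine ⟨c ^ p, Subtype.ext ?_⟩
    rw [hU]
    change algebraMap K (LaurentSeries K) (c ^ p) =
      V p (unitK ξ) (algebraMap K (LaurentSeries K) c)
    rw [Gen_algebraMap_eq_C, Gen_algebraMap_eq_C, Gen_V_C]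
  · intro m hm z
    exact star_U hq h.irr h.dvd_p hξ U hU hm z

end Fermat.Agent.S33.Depth
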