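/-
S33 / Depth.  TASK DEPTH-13: `RootStable` and `FrobStable` from a lift of the Frobenius.

If `s` is an automorphism of `F` acting coefficientwise through an automorphism `s₀` of `K` which
preserves `A` and induces `x ↦ x ^ p` on the residue field, then `res (s h) = Frob (res h)`
(coefficientwise Frobenius), and `f ^ p = (Frob f)(q ^ p)` (`MulHecke.pow_char_eq`).
-/
import Fermat.Agent.S33.Depth.Inst.Gen

set_option autoImplicit false

namespace Fermat.Agent.S33.Depth

open ModularCurve Fermat.Agent.S18.Vert Fermat.Agent.Lib.MulHecke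

variable {K : Type*} [Field K] [CharZero K] {A : ValuationSubring K} [IsDiscreteValuationRing A]
  {F : IntermediateField K (LaurentSeries K)} (hq : IsQuot A F)
  {p : ℕ} (hp : p.Prime) {π η : A} {e : ℕ} (h : IsP p A π η e)

/-- A coefficientwise automorphism lifting the Frobenius. -/
structure FrobLift (p : ℕ) (A : ValuationSubring K) (F : IntermediateField K (LaurentSeries K))
    (s : F ≃+* F) (s₀ : K ≃+* K) : Prop where
  coe : ∀ f : F, ((s f : F) : LaurentSeries K) = coeffMap (s₀ : K →+* K) (f : LaurentSeries K)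
  mem : ∀ a : K, a ∈ A ↔ s₀ a ∈ A
  frob : ∀ a : A, ∀ ha : s₀ (a : K) ∈ A,
    IsLocalRing.residue A ⟨s₀ (a : K), ha⟩ = IsLocalRing.residue A a ^ p

variable {s : F ≃+* F} {s₀ : K ≃+* K}

namespace FrobAux

omit [CharZero K] [IsDiscreteValuationRing A] in
/-- apply an automorphism of `K` preserving `A` to the coefficients of an integral series -/
noncomputable def liftT (t₀ : K ≃+* K) (hmem : ∀ a : K, a ∈ A → t₀ a ∈ A) (P : LaurentSeries A) :
    LaurentSeries A :=
  liftS A (coeffMap (t₀ : K →+* K) (inc A P)) (fun n => hmem _ (P.coeff n).2)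

omit [CharZero K] [IsDiscreteValuationRing A] in
theorem inc_liftT (t₀ : K ≃+* K) (hmem : ∀ a : K, a ∈ A → t₀ a ∈ A) (P : LaurentSeries A) :
    inc A (liftT t₀ hmem P) = coeffMap (t₀ : K →+* K) (inc A P) := inc_liftS A _ _

omit [CharZero K] [IsDiscreteValuationRing A] in
theorem liftT_coeff (t₀ : K ≃+* K) (hmem : ∀ a : K, a ∈ A → t₀ a ∈ A) (P : LaurentSeries A)
    (n : ℤ) : (liftT t₀ hmem P).coeff n = ⟨t₀ (P.coeff n : K), hmem _ (P.coeff n).2⟩ := rfl

omit [CharZero K] in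
/-- a coefficientwise automorphism preserving `A` and its maximal ideal preserves the Gauss ring,
with an explicit presentation -/
theorem exists_pres {t : F ≃+* F} {t₀ : K ≃+* K}
    (hcoe : ∀ f : F, ((t f : F) : LaurentSeries K) = coeffMap (t₀ : K →+* K) (f : LaurentSeries K))
    (hmem : ∀ a : K, a ∈ A → t₀ a ∈ A)
    (hres : ∀ a : A, IsLocalRing.residue A ⟨t₀ (a : K), hmem _ a.2⟩ = 0 →
      IsLocalRing.residue A a = 0)
    {z : F} {P Q : LaurentSeries A} (hP : inc A P ∈ F) (hQ : inc A Q ∈ F) (hQ0 : red A Q ≠ 0)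
    (h : (z : LaurentSeries K) * inc A Q = inc A P) :
    inc A (liftT t₀ hmem P) ∈ F ∧ inc A (liftT t₀ hmem Q) ∈ F ∧ red A (liftT t₀ hmem Q) ≠ 0 ∧
      ((t z : F) : LaurentSeries K) * inc A (liftT t₀ hmem Q) = inc A (liftT t₀ hmem P) := by
  refine ⟨?_, ?_, ?_, ?_⟩
  · rw [inc_liftT, ← hcoe ⟨inc A P, hP⟩]
    exact (t ⟨inc A P, hP⟩).2
  · rw [inc_liftT, ← hcoe ⟨inc A Q, hQ⟩]
    exact (t ⟨inc A Q, hQ⟩).2
  · intro h0
    apply hQ0
    ext n
    have h1 := congrArg (fun x => HahnSeries.coeff x n) h0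
    simp only [red_coeff, HahnSeries.coeff_zero, liftT_coeff] at h1
    rw [red_coeff, HahnSeries.coeff_zero]
    exact hres _ h1
  · rw [inc_liftT, inc_liftT, hcoe, ← map_mul, h]

end FrobAux

/-- `s` preserves the Gauss ring and induces the coefficientwise Frobenius.
(`z = P / Q`; apply `s₀` to the coefficients of `P`, `Q` (`liftS`); `gaussRes_spec`.) -/
theorem FrobLift.res [CharP (IsLocalRing.ResidueField A) p] [Fact p.Prime]
    (hs : FrobLift p A F s s₀) (z : gaussVal A F hq) :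
    ∃ hz : s (z : F) ∈ gaussVal A F hq,
      gaussRes hq ⟨s (z : F), hz⟩ =
        coeffMap (frobenius (IsLocalRing.ResidueField A) p) (gaussRes hq z) := by
  obtain ⟨P, Q, hP, hQ, hQ0, hz⟩ := (mem_gaussVal_iff hq _).1 z.2
  have hmem : ∀ a : K, a ∈ A → s₀ a ∈ A := fun a ha => (hs.mem a).1 ha
  have hred : ∀ R : LaurentSeries A, red A (FrobAux.liftT s₀ hmem R) =
      coeffMap (frobenius (IsLocalRing.ResidueField A) p) (red A R) := by
    intro R
    ext n
    rw [red_coeff, FrobAux.liftT_coeff, coeffMap_coeff, red_coeff]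
    exact hs.frob _ _
  obtain ⟨hP', hQ', hQ0', hz'⟩ := FrobAux.exists_pres (t := s) (t₀ := s₀) hs.coe hmem
    (fun a ha => by
      rw [hs.frob a _] at ha
      exact pow_eq_zero_iff (Fact.out : p.Prime).ne_zero |>.1 ha) hP hQ hQ0 hz
  have hmemz : s (z : F) ∈ gaussVal A F hq :=
    (mem_gaussVal_iff hq _).2 ⟨_, _, hP', hQ', hQ0', hz'⟩
  refine ⟨hmemz, ?_⟩
  have e1 := gaussRes_spec hq ⟨s (z : F), hmemz⟩ hQ0' hz'
  have e2 := gaussRes_spec hq z hQ0 hz
  apply mul_right_cancel₀ hQ0'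
  rw [e1, hred, hred, ← map_mul, e2]

/-- the same for `s⁻¹` -/
theorem FrobLift.res_symm [CharP (IsLocalRing.ResidueField A) p] [Fact p.Prime]
    (hs : FrobLift p A F s s₀) (z : gaussVal A F hq) :
    ∃ hz : s.symm (z : F) ∈ gaussVal A F hq,
      coeffMap (frobenius (IsLocalRing.ResidueField A) p) (gaussRes hq ⟨s.symm (z : F), hz⟩) =
        gaussRes hq z := by
  obtain ⟨P, Q, hP, hQ, hQ0, hz⟩ := (mem_gaussVal_iff hq _).1 z.2
  have hmem : ∀ a : K, a ∈ A → s₀.symm a ∈ A := fun a ha =>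
    (hs.mem _).2 (by rwa [RingEquiv.apply_symm_apply])
  have hcoe : ∀ f : F, ((s.symm f : F) : LaurentSeries K) =
      coeffMap (s₀.symm : K →+* K) (f : LaurentSeries K) := by
    intro f
    have h1 := hs.coe (s.symm f)
    rw [RingEquiv.apply_symm_apply] at h1
    rw [h1]
    ext n
    simp [coeffMap_coeff]
  obtain ⟨hP', hQ', hQ0', hz'⟩ := FrobAux.exists_pres (t := s.symm) (t₀ := s₀.symm) hcoe hmem
    (fun a ha => by
      have h1 := hs.frob ⟨s₀.symm (a : K), hmem _ a.2⟩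
        (by rw [RingEquiv.apply_symm_apply]; exact a.2)
      rw [ha, zero_pow (Fact.out : p.Prime).ne_zero] at h1
      rw [← h1]
      congr 1
      exact Subtype.ext (RingEquiv.apply_symm_apply s₀ _).symm) hP hQ hQ0 hz
  have hmemz : s.symm (z : F) ∈ gaussVal A F hq :=
    (mem_gaussVal_iff hq _).2 ⟨_, _, hP', hQ', hQ0', hz'⟩
  refine ⟨hmemz, ?_⟩
  obtain ⟨hz2, h2⟩ := hs.res hq ⟨s.symm (z : F), hmemz⟩
  rw [← h2]
  congr 1
  exact Subtype.ext (RingEquiv.apply_symm_apply s _)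

omit [CharZero K] in
/-- the residue field has characteristic `p` -/
theorem IsP.charP {p : ℕ} [Fact p.Prime] {π η : A} {e : ℕ} (h : IsP p A π η e) :
    CharP (IsLocalRing.ResidueField A) p :=
  charP_residueField h.irr h.dvd_p

/-- (`γ = s⁻¹ h`, `pow_char_eq`) -/
theorem rootStable_of_frobLift [Fact p.Prime] (hs : FrobLift p A F s s₀) :
    (gGen hq hp h).RootStable := by
  haveI := h.charP
  intro x
  obtain ⟨hz, h2⟩ := hs.res_symm hq (⟨(x : F), x.2⟩ : gaussVal A F hq)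
  have e : gaussRes hq ⟨s.symm (x : F), hz⟩ ^ p =
      qExpand _ p (gaussRes hq (⟨(x : F), x.2⟩ : gaussVal A F hq)) := by
    rw [pow_char_eq, h2]
  exact ⟨⟨s.symm (x : F), hz⟩, e⟩

/-- (`f' = s f`, `pow_char_eq`) -/
theorem frobStable_of_frobLift [Fact p.Prime] (hs : FrobLift p A F s s₀) :
    (gGen hq hp h).FrobStable := by
  haveI := h.charP
  intro x
  obtain ⟨hz, h2⟩ := hs.res hq (⟨(x : F), x.2⟩ : gaussVal A F hq)
  have e : qExpand _ p (gaussRes hq ⟨s (x : F), hz⟩) =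
      gaussRes hq (⟨(x : F), x.2⟩ : gaussVal A F hq) ^ p := by
    rw [pow_char_eq, h2]
  exact ⟨⟨s (x : F), hz⟩, e⟩

end Fermat.Agent.S33.Depth
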