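/-
S33 / Depth.  TASK DEPTH-15: `T_p` on units of the Gauss ring (Eichler-Shimura congruence).
-/
import Fermat.Agent.S33.Depth.L0
import Fermat.Agent.S33.Depth.Inst.Gen

set_option autoImplicit false

namespace Fermat.Agent.S33.Depth

open ModularCurve Fermat.Agent.S18.Vert Fermat.Agent.Lib.MulHecke

variable {K : Type*} [Field K] [CharZero K] {A : ValuationSubring K} [IsDiscreteValuationRing A]
  {F : IntermediateField K (LaurentSeries K)} (hq : IsQuot A F)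
  {p : ℕ} [Fact p.Prime] {π : A}

omit [CharZero K] in
/-- `y = P / Q` with `red P ≠ 0`, `red Q ≠ 0` (`y.2`, `gaussRes_spec`); `T y * T Q = T P`;
`T P = inc (Tm p ξ P)` (`hT`, `inc_Tm`), `red_Tm`; take `y' = gaussQuot hq (Tm p ξ P) (Tm p ξ Q)`. -/
theorem star_T0 [CharP (IsLocalRing.ResidueField A) p] (hπ : Irreducible π) (hp : π ∣ (p : A))
    {ξ : Aˣ} (hξ : ξ ^ p = 1) (T : F →* F)
    (hT : ∀ u : F, ((T u : F) : LaurentSeries K) = Tm p (unitK ξ) (u : LaurentSeries K))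
    (y : gaussVal A F hq) (hy : gaussRes hq y ≠ 0) :
    ∃ y' : gaussVal A F hq, T (y : F) = (y' : F) ∧
      gaussRes hq y' = qExpand _ p (gaussRes hq y) *
        coeffMap (frobenius (IsLocalRing.ResidueField A) p) (gaussRes hq y) := by
  obtain ⟨P, Q, hP, hQ, hQ0, hPQ⟩ := y.2
  have h4 := gaussRes_spec hq y hQ0 hPQ
  have hfr : coeffMap (frobenius (IsLocalRing.ResidueField A) p) (red A Q) ≠ 0 :=
    coeffMap_frobenius_ne_zero hQ0
  have hex : qExpand (IsLocalRing.ResidueField A) p (red A Q) ≠ 0 := fun h0 =>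
    hQ0 (qExpand_injective (R := IsLocalRing.ResidueField A) p (by rw [h0, map_zero]))
  have hτQ : red A (Tm p ξ Q) ≠ 0 := by
    rw [red_Tm hπ hp hξ]
    exact mul_ne_zero hex hfr
  have hTX : ∀ (X : LaurentSeries A) (hX : inc A X ∈ F),
      ((T ⟨inc A X, hX⟩ : F) : LaurentSeries K) = inc A (Tm p ξ X) := fun X hX => by
    rw [hT, inc_Tm]
  have hτQF : inc A (Tm p ξ Q) ∈ F := by
    rw [← hTX _ hQ]
    exact (T ⟨inc A Q, hQ⟩).2
  have hτPF : inc A (Tm p ξ P) ∈ F := by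
    rw [← hTX _ hP]
    exact (T ⟨inc A P, hP⟩).2
  have h1 : (y : F) * (⟨inc A Q, hQ⟩ : F) = ⟨inc A P, hP⟩ := Subtype.ext hPQ
  have h2 : ((T (y : F) : F) : LaurentSeries K) * inc A (Tm p ξ Q) = inc A (Tm p ξ P) := by
    have e : T (y : F) * T ⟨inc A Q, hQ⟩ = T ⟨inc A P, hP⟩ := by
      rw [← map_mul, h1]
    have e2 := congrArg (fun f : F => (f : LaurentSeries K)) e
    simp only [IntermediateField.coe_mul] at e2
    rw [hTX _ hQ, hTX _ hP] at e2
    exact e2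
  have h5 := coe_gaussQuot_mul hq (Tm p ξ P) (Tm p ξ Q) hτPF hτQF hτQ
  refine ⟨gaussQuot hq (Tm p ξ P) (Tm p ξ Q) hτPF hτQF hτQ, ?_, ?_⟩
  · apply Subtype.ext
    apply mul_right_cancel₀ (inc_ne_zero_of_red_ne_zero hτQ)
    rw [h2, h5]
  · have h3 := gaussRes_spec hq _ hτQ h5
    rw [red_Tm hπ hp hξ, red_Tm hπ hp hξ, ← h4, map_mul, map_mul] at h3
    apply mul_right_cancel₀ (mul_ne_zero hex hfr)
    rw [h3]
    ring

theorem op0_T [CharP (IsLocalRing.ResidueField A) p] (hp : p.Prime) {η : A} {e : ℕ}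
    (h : IsP p A π η e) {ξ : Aˣ} (hξ : ξ ^ p = 1) (T : F →* F)
    (hT : ∀ u : F, ((T u : F) : LaurentSeries K) = Tm p (unitK ξ) (u : LaurentSeries K)) :
    (gGen hq hp h).Op0 T := by
  intro y hy
  exact star_T0 hq h.irr h.dvd_p hξ T hT y hy

end Fermat.Agent.S33.Depth
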